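/-
S13, helper3 (backup of tasks row `LC-leaves-good+E0`): the two point-level leaves (c) of the
local-dichotomy package, in every residue characteristic.

* `inE1_smul_sub_of_good` : good reduction (`v Δ = 1`): `σ • P - P ∈ E₁` for every point `P` and
  every `σ` in the inertia group;
* `inE1_smul_sub_of_inE0` : multiplicative normal form (`a₃ = a₆ = 0`, `a₄ ∈ 𝔪`, `b₂` a unit):
  `σ • P - P ∈ E₁` for every `P ∈ E₀`.

Both are stated for an arbitrary field `L` (of universe `0`) with a `ℚ`-algebra structure; they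
apply verbatim with `L = AlgebraicClosure ℚ`.
-/
import Fermat.Agent.S05.Good
import Fermat.Agent.S05.H31.E0
import Fermat.Agent.S13.H86.Local2

set_option autoImplicit false

namespace Fermat.Agent.S13.H3

open WeierstrassCurve WeierstrassCurve.Affine WeierstrassCurve.Affine.Point Fermat.Agent.S05

variable {L : Type} [Field L] [DecidableEq L] [Algebra ℚ L]

/-- The action of a Galois automorphism on an affine point, in coordinates. -/
theorem smul_some_eq (W₀ : Affine ℚ) (σ : L ≃ₐ[ℚ] L) {x y : L} (h : (W₀⁄L).Nonsingular x y) :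
    σ • Point.some x y h =
      Point.some (σ x) (σ y) ((W₀.baseChange_nonsingular σ.toAlgHom.injective ..).mpr h) :=
  rfl

/-- A point with non-integral `x`-coordinate is moved inside the kernel of reduction by the
inertia group. -/
theorem inE1_smul_sub_of_not_mem (W₀ : Affine ℚ) (A : ValuationSubring L)
    (ha₁ : algebraMap ℚ L W₀.a₁ ∈ A) (ha₂ : algebraMap ℚ L W₀.a₂ ∈ A)
    (ha₃ : algebraMap ℚ L W₀.a₃ ∈ A) (ha₄ : algebraMap ℚ L W₀.a₄ ∈ A)
    (ha₆ : algebraMap ℚ L W₀.a₆ ∈ A)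
    {σ : L ≃ₐ[ℚ] L} (hσ : σ ∈ A.inertiaSubgroupIn ℚ)
    {x y : L} (h : (W₀⁄L).Nonsingular x y) (hx : x ∉ A) :
    H60.InE1 A (σ • Point.some x y h - Point.some x y h) := by
  refine H60.InE1.sub (W := W₀⁄L) A ha₁ ha₂ ha₃ ha₄ ha₆ (Or.inr ?_) (Or.inr ?_)
  · change σ x ∉ A
    exact fun hmem => hx ((H63.apply_mem_iff_of_mem_inertiaSubgroupIn hσ).mp hmem)
  · rw [xOf_some]
    exact hx

/-- **Leaf (c1).**  Good reduction, any residue characteristic: the inertia group moves every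
point inside the kernel of reduction. -/
theorem inE1_smul_sub_of_good (W₀ : Affine ℚ) (A : ValuationSubring L)
    (ha₁ : algebraMap ℚ L W₀.a₁ ∈ A) (ha₂ : algebraMap ℚ L W₀.a₂ ∈ A)
    (ha₃ : algebraMap ℚ L W₀.a₃ ∈ A) (ha₄ : algebraMap ℚ L W₀.a₄ ∈ A)
    (ha₆ : algebraMap ℚ L W₀.a₆ ∈ A)
    (hΔ : A.valuation (algebraMap ℚ L W₀.Δ) = 1)
    {σ : L ≃ₐ[ℚ] L} (hσ : σ ∈ A.inertiaSubgroupIn ℚ)
    (P : (W₀⁄L).Point) : H60.InE1 A (σ • P - P) := by
  rcases eq_or_ne P 0 with rfl | hP0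
  · left
    rw [smul_zero (A := (W₀⁄L).Point) σ, sub_zero]
  · obtain ⟨x, y, h, rfl⟩ := exists_some_of_ne_zero hP0
    by_cases hx : x ∈ A
    · have hy : y ∈ A := y_mem_of_x_mem A (W₀⁄L) ha₁ ha₂ ha₃ ha₄ ha₆ h.1 hx
      have hΔ' : A.valuation (W₀⁄L).Δ = 1 := by
        rw [show (W₀⁄L).Δ = algebraMap ℚ L W₀.Δ from WeierstrassCurve.map_Δ _ _]
        exact hΔ
      have hns := nonsingular_reduction_of_Δ A (W₀⁄L) ha₁ ha₂ ha₃ ha₄ ha₆ hΔ' h.1 hx
      rw [Affine.evalEval_polynomialX, Affine.evalEval_polynomialY] at hns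
      have hns' : (W₀⁄L).a₁ * y - (3 * x ^ 2 + 2 * (W₀⁄L).a₂ * x + (W₀⁄L).a₄) ∉ A.nonunits ∨
          2 * y + (W₀⁄L).a₁ * x + (W₀⁄L).a₃ ∉ A.nonunits := by
        rcases hns with h1 | h1
        · exact Or.inl fun hmem => by
            rw [A.mem_nonunits_iff, h1] at hmem; exact lt_irrefl _ hmem
        · exact Or.inr fun hmem => by
            rw [A.mem_nonunits_iff, h1] at hmem; exact lt_irrefl _ hmem
      rcases H63.smul_sub_eq_zero_or_X_not_mem (W' := W₀) A ha₁ ha₂ ha₃ ha₄ hσ h hx hy hns' with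
        h0 | ⟨x'', y'', h'', hQ, hnot⟩
      · exact Or.inl h0
      · right
        rw [hQ, xOf_some]
        exact hnot
    · exact inE1_smul_sub_of_not_mem W₀ A ha₁ ha₂ ha₃ ha₄ ha₆ hσ h hx

/-- **Leaf (c2).**  Multiplicative normal form, any residue characteristic: the inertia group
moves every point of `E₀` inside the kernel of reduction. -/
theorem inE1_smul_sub_of_inE0 (W₀ : Affine ℚ) (A : ValuationSubring L)
    (h₃ : W₀.a₃ = 0) (h₆ : W₀.a₆ = 0)
    (ha₁ : algebraMap ℚ L W₀.a₁ ∈ A) (ha₂ : algebraMap ℚ L W₀.a₂ ∈ A)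
    (h₄ : algebraMap ℚ L W₀.a₄ ∈ A.nonunits)
    (hb₂ : algebraMap ℚ L W₀.b₂ ∉ A.nonunits)
    {σ : L ≃ₐ[ℚ] L} (hσ : σ ∈ A.inertiaSubgroupIn ℚ)
    {P : (W₀⁄L).Point} (hP : H31.InE0 A P) : H60.InE1 A (σ • P - P) := by
  have e₃ : (W₀⁄L).a₃ = 0 := by
    change algebraMap ℚ L W₀.a₃ = 0
    rw [h₃, _root_.map_zero]
  have e₆ : (W₀⁄L).a₆ = 0 := by
    change algebraMap ℚ L W₀.a₆ = 0
    rw [h₆, _root_.map_zero]
  have ha₃ : algebraMap ℚ L W₀.a₃ ∈ A := by rw [h₃, _root_.map_zero]; exact A.zero_mem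
  have ha₆ : algebraMap ℚ L W₀.a₆ ∈ A := by rw [h₆, _root_.map_zero]; exact A.zero_mem
  have ha₄ : algebraMap ℚ L W₀.a₄ ∈ A := A.nonunits_subset h₄
  rcases eq_or_ne P 0 with rfl | hP0
  · left
    rw [smul_zero (A := (W₀⁄L).Point) σ, sub_zero]
  · obtain ⟨x, y, h, rfl⟩ := exists_some_of_ne_zero hP0
    have hxu : x ∉ A.nonunits := by
      rcases hP with h0 | h0
      · exact absurd h0 hP0
      · rwa [xOf_some] at h0
    by_cases hx : x ∈ A
    · have hy : y ∈ A := H86.y_mem_of_x_mem' (W := W₀⁄L) A e₃ e₆ ha₁ ha₂ ha₄ h.1 hx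
      have hb₂' : (W₀⁄L).b₂ ∉ A.nonunits := by
        rw [show (W₀⁄L).b₂ = algebraMap ℚ L W₀.b₂ from WeierstrassCurve.map_b₂ _ _]
        exact hb₂
      have hns := H86.nonsing_red_of_unit' (W := W₀⁄L) A e₃ e₆ ha₁ ha₂ h₄ hb₂' h.1 hx hxu
      rcases H63.smul_sub_eq_zero_or_X_not_mem (W' := W₀) A ha₁ ha₂ ha₃ ha₄ hσ h hx hy hns with
        h0 | ⟨x'', y'', h'', hQ, hnot⟩
      · exact Or.inl h0
      · right
        rw [hQ, xOf_some]
        exact hnot
    · exact inE1_smul_sub_of_not_mem W₀ A ha₁ ha₂ ha₃ ha₄ ha₆ hσ h hx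

end Fermat.Agent.S13.H3
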