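import Mathlib
import Fermat.Agent.S05.H63.Inertia

/-!
# Elements of the decomposition group preserve the valuation (algebraic extensions)

For an algebraic extension `L / K`, a valuation subring `A` of `L` and `σ : L ≃ₐ[K] L` in the
decomposition subgroup of `A` (in particular in the inertia subgroup), we have
`A.valuation (σ a) = A.valuation a` for every `a : L`.

This is NOT formal from "`σ` preserves `A`": it uses that every element of `L` has a finite
`σ`-orbit (for a general field automorphism preserving `A` the statement is false).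
-/

set_option autoImplicit false

namespace Fermat.Agent.S13.H3

open scoped Pointwise

variable {K L : Type*} [Field K] [Field L] [Algebra K L]

/-- Every element of an algebraic extension is fixed by a positive power of a given
automorphism. -/
theorem exists_pow_apply_eq [Algebra.IsAlgebraic K L] (σ : L ≃ₐ[K] L) (a : L) :
    ∃ n : ℕ, 0 < n ∧ (σ ^ n) a = a := by
  have hint : IsIntegral K a := (Algebra.IsAlgebraic.isAlgebraic a).isIntegral
  have hfin : ((minpoly K a).rootSet L).Finite := Polynomial.rootSet_finite _ _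
  have hmem : ∀ k : ℕ, (σ ^ k) a ∈ (minpoly K a).rootSet L := by
    intro k
    rw [Polynomial.mem_rootSet]
    refine ⟨minpoly.ne_zero hint, ?_⟩
    have h := Polynomial.aeval_algHom_apply ((σ ^ k : L ≃ₐ[K] L) : L →ₐ[K] L) a (minpoly K a)
    rw [minpoly.aeval, map_zero] at h
    exact h
  obtain ⟨i, j, hne, hij⟩ : ∃ i j : ℕ, i ≠ j ∧ (σ ^ i) a = (σ ^ j) a := by
    by_contra hcon
    have hcon' : ∀ i j : ℕ, i ≠ j → (σ ^ i) a ≠ (σ ^ j) a := fun i j hne h => hcon ⟨i, j, hne, h⟩
    have hinj : Function.Injective (fun k : ℕ => (⟨(σ ^ k) a, hmem k⟩ : (minpoly K a).rootSet L)) := by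
      intro i j h
      by_contra hne
      exact hcon' i j hne (congrArg Subtype.val h)
    have : Finite ((minpoly K a).rootSet L) := hfin
    exact not_injective_infinite_finite _ hinj
  wlog hlt : i < j generalizing i j
  · exact this j i hne.symm hij.symm (lt_of_le_of_ne (not_lt.mp hlt) hne.symm)
  refine ⟨j - i, Nat.sub_pos_of_lt hlt, ?_⟩
  have h1 : (σ ^ i) ((σ ^ (j - i)) a) = (σ ^ i) a := by
    rw [← AlgEquiv.mul_apply, ← pow_add, Nat.add_sub_cancel' hlt.le]
    exact hij.symm
  exact (σ ^ i).injective h1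

/-- If `u` is a nonunit of `A` and `σ` is in the decomposition group, then
`σ^n a / a` (written multiplicatively) stays a nonunit: auxiliary telescoping statement. -/
private theorem pow_apply_eq_mul_of_mem_nonunits {A : ValuationSubring L} {σ : L ≃ₐ[K] L}
    (hσ : σ ∈ A.decompositionSubgroup K) {a u : L} (hu : u ∈ A.nonunits) (hau : σ a = u * a) :
    ∀ n : ℕ, ∃ w : L, w ∈ A.nonunits ∧ (σ ^ (n + 1)) a = w * a := by
  intro n
  induction n with
  | zero => exact ⟨u, hu, by simpa using hau⟩
  | succ n ih =>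
    obtain ⟨w, hw, hwa⟩ := ih
    refine ⟨σ w * u, ?_, ?_⟩
    · have h1 : σ w ∈ A.nonunits :=
        Fermat.Agent.S05.H63.apply_mem_nonunits_of_mem_decompositionSubgroup hσ hw
      exact A.nonunits.mul_mem h1 hu
    · rw [pow_succ' σ (n + 1), AlgEquiv.mul_apply, hwa, map_mul, hau]
      ring

/-- **Decomposition-group elements preserve the valuation** (algebraic extensions). -/
theorem valuation_apply_eq_of_mem_decompositionSubgroup [Algebra.IsAlgebraic K L]
    {A : ValuationSubring L} {σ : L ≃ₐ[K] L} (hσ : σ ∈ A.decompositionSubgroup K) (a : L) :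
    A.valuation (σ a) = A.valuation a := by
  rcases eq_or_ne a 0 with rfl | ha
  · simp
  have hσa : σ a ≠ 0 := by simpa using ha
  -- it suffices to exclude `v (σ a) < v a` for `σ` and for `σ⁻¹`
  have key : ∀ (τ : L ≃ₐ[K] L), τ ∈ A.decompositionSubgroup K → ∀ b : L, b ≠ 0 →
      ¬ A.valuation (τ b) < A.valuation b := by
    intro τ hτ b hb hlt
    have hτb : τ b ≠ 0 := by simpa using hb
    have hu : τ b / b ∈ A.nonunits := by
      rw [A.mem_nonunits_iff, map_div₀]
      exact (div_lt_one₀ (zero_lt_iff.mpr ((Valuation.ne_zero_iff _).mpr hb))).mpr hlt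
    have hau : τ b = (τ b / b) * b := by field_simp
    obtain ⟨n, hn, hfix⟩ := exists_pow_apply_eq τ b
    obtain ⟨m, rfl⟩ : ∃ m, n = m + 1 := ⟨n - 1, by omega⟩
    obtain ⟨w, hw, hwb⟩ := pow_apply_eq_mul_of_mem_nonunits hτ hu hau m
    rw [hfix] at hwb
    have hw1 : w = 1 := by
      have : w * b = 1 * b := by rw [one_mul]; exact hwb.symm
      exact mul_right_cancel₀ hb this
    rw [hw1, A.mem_nonunits_iff, map_one] at hw
    exact lt_irrefl _ hw
  refine le_antisymm (not_lt.mp ?_) (not_lt.mp (key σ hσ a ha))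
  intro hlt
  have h := key σ⁻¹ (inv_mem hσ) (σ a) hσa
  apply h
  have e : σ⁻¹ (σ a) = a := by
    rw [← AlgEquiv.mul_apply, inv_mul_cancel, AlgEquiv.one_apply]
  rw [e]
  exact hlt

/-- Inertia-group version. -/
theorem valuation_apply_eq_of_mem_inertiaSubgroupIn [Algebra.IsAlgebraic K L]
    {A : ValuationSubring L} {σ : L ≃ₐ[K] L} (hσ : σ ∈ A.inertiaSubgroupIn K) (a : L) :
    A.valuation (σ a) = A.valuation a :=
  valuation_apply_eq_of_mem_decompositionSubgroup
    (Fermat.Agent.S05.H63.mem_decompositionSubgroup_of_mem_inertiaSubgroupIn hσ) a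

/-- Specialisation to `AlgebraicClosure ℚ / ℚ`, the case used for the Frey curve. -/
theorem valuation_apply_eq_of_mem_inertiaSubgroupIn_rat
    {A : ValuationSubring (AlgebraicClosure ℚ)}
    {σ : AlgebraicClosure ℚ ≃ₐ[ℚ] AlgebraicClosure ℚ} (hσ : σ ∈ A.inertiaSubgroupIn ℚ)
    (a : AlgebraicClosure ℚ) : A.valuation (σ a) = A.valuation a := by
  have : Algebra.IsAlgebraic ℚ (AlgebraicClosure ℚ) := AlgebraicClosure.isAlgebraic ℚ
  exact valuation_apply_eq_of_mem_inertiaSubgroupIn hσ a

end Fermat.Agent.S13.H3
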